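/-
Programme JAC (S25), chapter Mod (B1: affine dictionary).  Owner: helper36.

* `tildePullbackIso`: pullback of `tilde M` along `Spec φ` is `tilde` of the extension of scalars.
* `isQuasicoherent_of_isInvertible`: an invertible sheaf of modules (Prelude sense) is
  quasi-coherent.
-/
import Mathlib
import Fermat.Prelude.Def_AlgebraicGeometry_RelativePicardFunctor

set_option autoImplicit false

universe u

open CategoryTheory CategoryTheory.Limits AlgebraicGeometry

namespace Fermat.Agent.JAC.Mod.Affine36

section Tilde

variable {R S : CommRingCat.{u}} (φ : R ⟶ S)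

/-- Global sections of the pushforward along `Spec φ` are the restriction of scalars of the global
sections (the two right adjoints commute). -/
noncomputable def pushforwardΓIso :
    Scheme.Modules.pushforward (Spec.map φ) ⋙ moduleSpecΓFunctor (R := R) ≅
      moduleSpecΓFunctor (R := S) ⋙ ModuleCat.restrictScalars φ.hom :=
  Functor.isoWhiskerRight (pushforwardCompModulesSpecToSheafIso φ)
    (TopCat.Sheaf.forget _ _ ⋙ (evaluation _ _).obj (.op ⊤)) ≪≫ Iso.refl _

/-- The pullback of `tilde M` along `Spec φ` is `tilde (S ⊗[R] M)`, naturally in `M`. -/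
noncomputable def tildePullbackIso :
    tilde.functor R ⋙ Scheme.Modules.pullback (Spec.map φ) ≅
      ModuleCat.extendScalars φ.hom ⋙ tilde.functor S :=
  Adjunction.leftAdjointUniq
    ((tilde.adjunction (R := R)).comp (Scheme.Modules.pullbackPushforwardAdjunction (Spec.map φ)))
    (((ModuleCat.extendRestrictScalarsAdj φ.hom).comp (tilde.adjunction (R := S))).ofNatIsoRight
      (pushforwardΓIso φ).symm)

end Tilde

section Quasicoherent

variable {X : Scheme.{u}}

/-- `M.over U` corresponds to the restriction of `M` to `U` under `overEquiv`. -/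
noncomputable def overIsoInverseRestrict (M : X.Modules) (U : X.Opens) :
    M.over U ≅
      (Scheme.Modules.overEquiv U).inverse.obj ((Scheme.Modules.restrictFunctor U.ι).obj M) :=
  (Scheme.Modules.overEquiv U).unitIso.app (M.over U) ≪≫
    (Scheme.Modules.overEquiv U).inverse.mapIso ((Scheme.Modules.overFunctorEquiv U).app M)

/-- If the pullback of `M` to `U` is trivial then `M.over U` is the unit. -/
noncomputable def overIsoUnitOfIso (M : X.Modules) (U : X.Opens)
    (e : (Scheme.Modules.pullback U.ι).obj M ≅ SheafOfModules.unit U.toScheme.ringCatSheaf) :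
    M.over U ≅ SheafOfModules.unit (X.ringCatSheaf.over U) :=
  overIsoInverseRestrict M U ≪≫
    (Scheme.Modules.overEquiv U).inverse.mapIso
      ((Scheme.Modules.restrictFunctorIsoPullback U.ι).app M ≪≫ e) ≪≫
    TopologicalSpace.Opens.sheafOfModulesEquivOverInverseUnit _ _

theorem isQuasicoherent_over_of_iso (M : X.Modules) (U : X.Opens)
    (e : (Scheme.Modules.pullback U.ι).obj M ≅ SheafOfModules.unit U.toScheme.ringCatSheaf) :
    (M.over U).IsQuasicoherent := by
  have h : (SheafOfModules.free (R := X.ringCatSheaf.over U) PUnit.{u+1}).IsQuasicoherent :=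
    inferInstance
  have e' : SheafOfModules.free (R := X.ringCatSheaf.over U) PUnit.{u+1} ≅ M.over U :=
    (coproductUniqueIso (fun _ : PUnit.{u+1} => SheafOfModules.unit (X.ringCatSheaf.over U))) ≪≫
      (overIsoUnitOfIso M U e).symm
  exact (SheafOfModules.isQuasicoherent (X.ringCatSheaf.over U)).prop_of_iso e' h

/-- An invertible module (in the Prelude sense) is quasi-coherent. -/
theorem isQuasicoherent_of_isInvertible (M : X.Modules) (hM : Scheme.Modules.IsInvertible M) :
    M.IsQuasicoherent := by
  choose U hxU hU using hM.exists_trivialization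
  have hcov : (Opens.grothendieckTopology X).CoversTop U := by
    rw [Opens.coversTop_iff]
    exact TopologicalSpace.IsOpenCover.mk
      (top_unique fun x _ => TopologicalSpace.Opens.mem_iSup.mpr ⟨x, hxU x⟩)
  have : ∀ x, (M.over (U x)).IsQuasicoherent := fun x =>
    isQuasicoherent_over_of_iso M (U x) (hU x).some
  exact SheafOfModules.IsQuasicoherent.of_coversTop M U hcov

/-- An invertible module on an affine scheme is the `tilde` of its global sections. -/
noncomputable def isoTildeOfIsInvertible {R : CommRingCat.{u}} (M : (Spec R).Modules)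
    (hM : Scheme.Modules.IsInvertible M) :
    tilde (moduleSpecΓFunctor.obj M) ≅ M :=
  have h1 : M.IsQuasicoherent := isQuasicoherent_of_isInvertible M hM
  have h2 : IsIso M.fromTildeΓ := (isQuasicoherent_iff_isIso_fromTildeΓ M).mp h1
  @asIso _ _ _ _ M.fromTildeΓ h2

end Quasicoherent

end Fermat.Agent.JAC.Mod.Affine36
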