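/-
JAC brick B1.3 (geometric part), helper85.

The affine dictionary for invertible sheaves on `Spec R`:

* `invertible_Γ`: if `M : (Spec R).Modules` is invertible (Prelude sense) then its module of
  global sections is an invertible `R`-module (and `M ≅ tilde (Γ M)` by `Affine36`);
* `isInvertible_tilde`: if `N` is an invertible `R`-module then `tilde N` is invertible.
-/
import Mathlib
import Fermat.Prelude.Def_AlgebraicGeometry_RelativePicardFunctor
import Fermat.Agent.JAC.Mod.Affine36
import Fermat.Agent.JAC.Mod.LocInv85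

set_option autoImplicit false

universe u

open CategoryTheory CategoryTheory.Limits AlgebraicGeometry TensorProduct

namespace Fermat.Agent.JAC.Mod.AffineInv85

section General

variable {X Y : Scheme.{u}}

/-- Pulling back along an isomorphism and then along its inverse does nothing. -/
noncomputable def pullbackInvHomIso (j : X ≅ Y) (A : Y.Modules) :
    (Scheme.Modules.pullback j.inv).obj ((Scheme.Modules.pullback j.hom).obj A) ≅ A :=
  (Scheme.Modules.pullbackComp j.inv j.hom).app A ≪≫
    (Scheme.Modules.pullbackCongr j.inv_hom_id).app A ≪≫ (Scheme.Modules.pullbackId Y).app A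

/-- If the pullback of `A` along an isomorphism of schemes is trivial, so is `A`. -/
noncomputable def isoUnitOfPullbackIso (j : X ≅ Y) (A : Y.Modules)
    (e : (Scheme.Modules.pullback j.hom).obj A ≅ SheafOfModules.unit X.ringCatSheaf) :
    A ≅ SheafOfModules.unit Y.ringCatSheaf :=
  (pullbackInvHomIso j A).symm ≪≫ (Scheme.Modules.pullback j.inv).mapIso e ≪≫
    Scheme.Modules.pullbackUnitIso j.inv

/-- A trivialisation on an open `U` restricts to a trivialisation on any smaller open `V`. -/
noncomputable def pullbackιIsoUnitOfLE (M : X.Modules) {U V : X.Opens} (h : V ≤ U)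
    (e : (Scheme.Modules.pullback U.ι).obj M ≅ SheafOfModules.unit U.toScheme.ringCatSheaf) :
    (Scheme.Modules.pullback V.ι).obj M ≅ SheafOfModules.unit V.toScheme.ringCatSheaf :=
  (Scheme.Modules.pullbackCongr (X.homOfLE_ι h).symm).app M ≪≫
    ((Scheme.Modules.pullbackComp (X.homOfLE h) U.ι).app M).symm ≪≫
    (Scheme.Modules.pullback (X.homOfLE h)).mapIso e ≪≫ Scheme.Modules.pullbackUnitIso _

end General

section Algebra

/-- For a ring hom `f`, with `f.toAlgebra` as algebra instance, the extension of scalars is
literally the tensor product. -/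
noncomputable def extendScalarsEquivToAlgebra {R S : Type u} [CommRing R] [CommRing S]
    (f : R →+* S) (M : ModuleCat.{u} R) :
    letI := f.toAlgebra
    (ModuleCat.extendScalars f).obj M ≃ₗ[S] S ⊗[R] M :=
  letI := f.toAlgebra
  LinearEquiv.refl S _

/-- The extension of scalars along `algebraMap R S` is (non-canonically here) the tensor product
`S ⊗[R] M` for the given algebra structure. -/
theorem nonempty_extendScalars_equiv {R S : Type u} [CommRing R] [CommRing S] [alg : Algebra R S]
    (M : ModuleCat.{u} R) :
    Nonempty ((ModuleCat.extendScalars (algebraMap R S)).obj M ≃ₗ[S] S ⊗[R] M) := by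
  have h : (algebraMap R S).toAlgebra = alg := Algebra.algebra_ext _ _ (fun _ => rfl)
  have e := extendScalarsEquivToAlgebra (algebraMap R S) M
  rw [h] at e
  exact ⟨e⟩

end Algebra

section Affine

variable {R : CommRingCat.{u}}

/-- The localisation map `R ⟶ R[1/f]` in `CommRingCat`. -/
noncomputable abbrev awayMap (f : R) : R ⟶ CommRingCat.of (Localization.Away f) :=
  CommRingCat.ofHom (algebraMap R (Localization.Away f))

/-- The restriction of `tilde N` to the basic open `D(f)`, transported to `Spec R[1/f]`, is the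
`tilde` of the extension of scalars. -/
noncomputable def pullbackBasicOpenTildeIso (f : R) (N : ModuleCat.{u} R) :
    (Scheme.Modules.pullback
        (Scheme.Opens.ι (X := Spec R) (PrimeSpectrum.basicOpen f))).obj (tilde N) ≅
      (Scheme.Modules.pullback (basicOpenIsoSpecAway f).hom).obj
        (tilde ((ModuleCat.extendScalars (awayMap f).hom).obj N)) :=
  (Scheme.Modules.pullbackCongr (basicOpenIsoSpecAway_hom_SpecMap f).symm).app (tilde N) ≪≫
    ((Scheme.Modules.pullbackComp _ _).app (tilde N)).symm ≪≫
    (Scheme.Modules.pullback (basicOpenIsoSpecAway f).hom).mapIso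
      ((Affine36.tildePullbackIso (awayMap f)).app N)

/-- If `R[1/f] ⊗ N` is free of rank one then `tilde N` is trivial on `D(f)`. -/
noncomputable def pullbackBasicOpenTildeIsoUnit (f : R) (N : ModuleCat.{u} R)
    (e : (ModuleCat.extendScalars (awayMap f).hom).obj N ≅
      ModuleCat.of (Localization.Away f) (Localization.Away f)) :
    (Scheme.Modules.pullback
        (Scheme.Opens.ι (X := Spec R) (PrimeSpectrum.basicOpen f))).obj (tilde N) ≅
      SheafOfModules.unit _ :=
  pullbackBasicOpenTildeIso f N ≪≫
    (Scheme.Modules.pullback (basicOpenIsoSpecAway f).hom).mapIso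
      ((tilde.functor (CommRingCat.of (Localization.Away f))).mapIso e ≪≫ tildeSelf) ≪≫
    Scheme.Modules.pullbackUnitIso _

/-- If `tilde N` is trivial on `D(f)` then `R[1/f] ⊗ N` is free of rank one. -/
noncomputable def extendScalarsIsoOfPullbackIsoUnit (f : R) (N : ModuleCat.{u} R)
    (e : (Scheme.Modules.pullback
        (Scheme.Opens.ι (X := Spec R) (PrimeSpectrum.basicOpen f))).obj (tilde N) ≅
      SheafOfModules.unit _) :
    (ModuleCat.extendScalars (awayMap f).hom).obj N ≅
      ModuleCat.of (Localization.Away f) (Localization.Away f) :=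
  (tilde.fullyFaithfulFunctor (R := CommRingCat.of (Localization.Away f))).preimageIso
    (isoUnitOfPullbackIso (basicOpenIsoSpecAway f) _ ((pullbackBasicOpenTildeIso f N).symm ≪≫ e) ≪≫
      tildeSelf.symm)

/-- The extension of scalars of `N` to `R[1/f]`, as a linear equivalence with the standard
localised module. -/
theorem nonempty_extendScalars_equiv_localizedModule (f : R) (N : ModuleCat.{u} R) :
    Nonempty ((ModuleCat.extendScalars (awayMap f).hom).obj N ≃ₗ[Localization.Away f]
      LocalizedModule.Away f N) := by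
  obtain ⟨e2⟩ := nonempty_extendScalars_equiv (R := R) (S := Localization.Away f) N
  exact ⟨e2 ≪≫ₗ (IsLocalizedModule.isBaseChange (.powers f) (Localization.Away f)
    (LocalizedModule.mkLinearMap (.powers f) N)).equiv⟩

/-- **(b)** If `N` is an invertible `R`-module, then `tilde N` is an invertible sheaf of modules
on `Spec R`. -/
theorem isInvertible_tilde (N : ModuleCat.{u} R) [Module.Invertible R N] :
    Scheme.Modules.IsInvertible (tilde N) := by
  refine ⟨fun x => ?_⟩
  obtain ⟨s, hs, hfree⟩ := Module.Invertible.exists_finset_free_localization R N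
  have hx : ∃ r ∈ s, r ∉ (show PrimeSpectrum R from x).asIdeal := by
    by_contra hcon
    push Not at hcon
    have hle : Ideal.span (s : Set R) ≤ (show PrimeSpectrum R from x).asIdeal :=
      Ideal.span_le.mpr fun r hr => hcon r hr
    rw [hs] at hle
    exact (show PrimeSpectrum R from x).isPrime.ne_top (top_unique hle)
  obtain ⟨r, hr, hrx⟩ := hx
  have hfr := hfree r hr
  obtain ⟨e1⟩ := (Module.Invertible.free_iff_linearEquiv (R := Localization.Away r)
    (M := LocalizedModule.Away r N)).mp hfr
  obtain ⟨e2⟩ := nonempty_extendScalars_equiv_localizedModule r N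
  exact ⟨PrimeSpectrum.basicOpen r, hrx,
    ⟨pullbackBasicOpenTildeIsoUnit r N (e2 ≪≫ₗ e1).toModuleIso⟩⟩

/-- The set of `f : R` such that `R[1/f] ⊗ N` is free of rank one. -/
def trivSet (N : ModuleCat.{u} R) : Set R :=
  {f | Nonempty ((ModuleCat.extendScalars (awayMap f).hom).obj N ≅
      ModuleCat.of (Localization.Away f) (Localization.Away f))}

/-- If `tilde N` is invertible, the `f` with `R[1/f] ⊗ N` free of rank one span the unit ideal. -/
theorem span_trivSet_eq_top (N : ModuleCat.{u} R) (hN : Scheme.Modules.IsInvertible (tilde N)) :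
    Ideal.span (trivSet N) = ⊤ := by
  by_contra hne
  obtain ⟨m, hm, hle⟩ := Ideal.exists_le_maximal _ hne
  let x : PrimeSpectrum R := ⟨m, hm.isPrime⟩
  obtain ⟨U, hxU, ⟨e⟩⟩ := hN.1 x
  obtain ⟨_, ⟨f, rfl⟩, hxf, hfU⟩ :=
    PrimeSpectrum.isTopologicalBasis_basic_opens.exists_subset_of_mem_open hxU U.2
  have hf : f ∈ trivSet N :=
    ⟨extendScalarsIsoOfPullbackIsoUnit f N
      (pullbackιIsoUnitOfLE (X := Spec R) (tilde N) (U := U) (V := PrimeSpectrum.basicOpen f) hfU e)⟩
  exact hxf (hle (Ideal.subset_span hf))

/-- If `tilde N` is invertible then `N` is an invertible module. -/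
theorem invertible_of_isInvertible_tilde (N : ModuleCat.{u} R)
    (hN : Scheme.Modules.IsInvertible (tilde N)) : Module.Invertible R N := by
  refine LocInv85.invertible_of_localizationSpan (trivSet N) (span_trivSet_eq_top N hN) fun g => ?_
  obtain ⟨e⟩ := g.2
  obtain ⟨e2⟩ := nonempty_extendScalars_equiv_localizedModule g.1 N
  exact Module.Invertible.congr (e2.symm ≪≫ₗ e.toLinearEquiv).symm

/-- Invertibility of sheaves of modules is invariant under isomorphism. -/
theorem isInvertible_of_iso {X : Scheme.{u}} {M M' : X.Modules} (e : M ≅ M')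
    (hM : Scheme.Modules.IsInvertible M) : Scheme.Modules.IsInvertible M' := by
  refine ⟨fun x => ?_⟩
  obtain ⟨U, hxU, ⟨t⟩⟩ := hM.1 x
  exact ⟨U, hxU, ⟨(Scheme.Modules.pullback U.ι).mapIso e.symm ≪≫ t⟩⟩

/-- **(a)** The global sections of an invertible sheaf of modules on `Spec R` form an invertible
`R`-module. -/
theorem invertible_Γ (M : (Spec R).Modules) (hM : Scheme.Modules.IsInvertible M) :
    Module.Invertible R (moduleSpecΓFunctor.obj M) :=
  invertible_of_isInvertible_tilde _
    (isInvertible_of_iso (Affine36.isoTildeOfIsInvertible M hM).symm hM)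

/-- `tilde N` is invertible iff `N` is. -/
theorem isInvertible_tilde_iff (N : ModuleCat.{u} R) :
    Scheme.Modules.IsInvertible (tilde N) ↔ Module.Invertible R N :=
  ⟨invertible_of_isInvertible_tilde N, fun _ => isInvertible_tilde N⟩

/-- `tilde N` is trivial iff `N` is free of rank one. -/
theorem nonempty_tilde_iso_unit_iff (N : ModuleCat.{u} R) :
    Nonempty (tilde N ≅ SheafOfModules.unit (Spec R).ringCatSheaf) ↔ Nonempty (N ≃ₗ[R] R) := by
  constructor
  · rintro ⟨e⟩
    exact ⟨((tilde.fullyFaithfulFunctor (R := R)).preimageIso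
      (X := N) (Y := ModuleCat.of R R) (e ≪≫ tildeSelf.symm)).toLinearEquiv⟩
  · rintro ⟨e⟩
    exact ⟨(tilde.functor R).mapIso (e.toModuleIso (X₂ := ModuleCat.of R R)) ≪≫ tildeSelf⟩

/-- A quasi-coherent sheaf of modules on `Spec R` is the `tilde` of its global sections. -/
noncomputable def fromTildeΓIso (M : (Spec R).Modules) [hM : M.IsQuasicoherent] :
    tilde (moduleSpecΓFunctor.obj M) ≅ M :=
  have h2 : IsIso M.fromTildeΓ := (isQuasicoherent_iff_isIso_fromTildeΓ M).mp hM
  @asIso _ _ _ _ M.fromTildeΓ h2

/-- A quasi-coherent sheaf of modules on `Spec R` is trivial iff its module of global sections is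
free of rank one. -/
theorem nonempty_iso_unit_iff (M : (Spec R).Modules) [M.IsQuasicoherent] :
    Nonempty (M ≅ SheafOfModules.unit (Spec R).ringCatSheaf) ↔
      Nonempty (moduleSpecΓFunctor.obj M ≃ₗ[R] R) := by
  rw [← nonempty_tilde_iso_unit_iff]
  exact ⟨fun ⟨e⟩ => ⟨fromTildeΓIso M ≪≫ e⟩, fun ⟨e⟩ => ⟨(fromTildeΓIso M).symm ≪≫ e⟩⟩

/-- **(a)+(b)** A sheaf of modules on `Spec R` is invertible iff it is quasi-coherent with
invertible module of global sections. -/
theorem isInvertible_iff (M : (Spec R).Modules) :
    Scheme.Modules.IsInvertible M ↔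
      M.IsQuasicoherent ∧ Module.Invertible R (moduleSpecΓFunctor.obj M) := by
  constructor
  · exact fun hM => ⟨Affine36.isQuasicoherent_of_isInvertible M hM, invertible_Γ M hM⟩
  · rintro ⟨hq, hinv⟩
    exact isInvertible_of_iso (fromTildeΓIso M) (@isInvertible_tilde R _ hinv)

section BaseChange

variable {S : CommRingCat.{u}} (φ : R ⟶ S)

/-- **(c)** Global sections of the pullback along `Spec φ` of a quasi-coherent sheaf of modules
are the extension of scalars of the global sections. -/
noncomputable def ΓPullbackIso (M : (Spec R).Modules) [M.IsQuasicoherent] :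
    moduleSpecΓFunctor.obj ((Scheme.Modules.pullback (Spec.map φ)).obj M) ≅
      (ModuleCat.extendScalars φ.hom).obj (moduleSpecΓFunctor.obj M) :=
  moduleSpecΓFunctor.mapIso
      ((Scheme.Modules.pullback (Spec.map φ)).mapIso (fromTildeΓIso M).symm ≪≫
        (Affine36.tildePullbackIso φ).app _) ≪≫
    (tilde.toTildeΓNatIso.app _).symm

/-- **(c)**, invertible case. -/
noncomputable def ΓPullbackIsoOfIsInvertible (M : (Spec R).Modules)
    (hM : Scheme.Modules.IsInvertible M) :
    moduleSpecΓFunctor.obj ((Scheme.Modules.pullback (Spec.map φ)).obj M) ≅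
      (ModuleCat.extendScalars φ.hom).obj (moduleSpecΓFunctor.obj M) :=
  haveI := Affine36.isQuasicoherent_of_isInvertible M hM
  ΓPullbackIso φ M

/-- The pullback of a quasi-coherent sheaf along `Spec φ` is the `tilde` of the extension of
scalars of its global sections. -/
noncomputable def pullbackIsoTilde (M : (Spec R).Modules) [M.IsQuasicoherent] :
    (Scheme.Modules.pullback (Spec.map φ)).obj M ≅
      tilde ((ModuleCat.extendScalars φ.hom).obj (moduleSpecΓFunctor.obj M)) :=
  (Scheme.Modules.pullback (Spec.map φ)).mapIso (fromTildeΓIso M).symm ≪≫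
    (Affine36.tildePullbackIso φ).app _

end BaseChange

/-- **(c)**, unbundled linear form: for an `R`-algebra `S` and `M` quasi-coherent on `Spec R`,
`Γ (pullback M) ≃ S ⊗[R] Γ M`. -/
theorem nonempty_Γ_pullback_equiv {A B : Type u} [CommRing A] [CommRing B] [Algebra A B]
    (M : (Spec (CommRingCat.of A)).Modules) [M.IsQuasicoherent] :
    Nonempty ((moduleSpecΓFunctor (R := CommRingCat.of B)).obj ((Scheme.Modules.pullback
        (Spec.map (CommRingCat.ofHom (algebraMap A B)))).obj M) ≃ₗ[B]
      B ⊗[A] ((moduleSpecΓFunctor (R := CommRingCat.of A)).obj M : ModuleCat A)) := by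
  obtain ⟨e⟩ := nonempty_extendScalars_equiv (R := A) (S := B)
    ((moduleSpecΓFunctor (R := CommRingCat.of A)).obj M)
  exact ⟨(ΓPullbackIso (R := CommRingCat.of A) (S := CommRingCat.of B)
    (CommRingCat.ofHom (algebraMap A B)) M).toLinearEquiv ≪≫ₗ e⟩

end Affine

end Fermat.Agent.JAC.Mod.AffineInv85
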