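import Mathlib

/-!
# Programme JAC, chapter Mod (B1.4): sections of a quasi-coherent module localise on basic opens

`X` a scheme, `M : X.Modules` quasi-coherent, `V` an affine open of `X`, `f : Γ(X, V)`.  Then the
restriction map `Γ(M, V) → Γ(M, D(f))` is the localisation of the `Γ(X, V)`-module `Γ(M, V)` at
the powers of `f`.

* `exists_pow_smul_eq_res`, `exists_pow_smul_eq_of_res_eq`: elementary form (no instance choices);
* `moduleOfLE`, `resₗ`: `Γ(M, W)` as a `Γ(X, V)`-module for `W ≤ V`, and the restriction as a linear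
  map;
* `isLocalizedModule_resₗ_basicOpen`, `isLocalizedModule_resₗ_of_eq_basicOpen`: packaged form.
* `restrictAppIso_smul_fromSpec`: the `Γ(X, V)`-action on the sections of `M.restrict hV.fromSpec`
  (a module on `Spec Γ(X, V)`) is the restricted action on sections of `M`.

Route: `M.restrict hV.fromSpec` is quasi-coherent on `Spec Γ(X, V)`, hence `≅ tilde` (Mathlib
`isIso_fromTildeΓ_of_isQuasicoherent`), hence localising (`isIso_fromTildeΓ_iff_isLocalizing`).
-/

set_option autoImplicit false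

universe u

open CategoryTheory AlgebraicGeometry TopologicalSpace Opposite

namespace Fermat.Agent.JAC.Mod.SectionsLoc4

variable {X : Scheme.{u}} (M : X.Modules) {V : X.Opens} (hV : IsAffineOpen V)

theorem image_fromSpec_le (U : (Spec Γ(X, V)).Opens) : hV.fromSpec ''ᵁ U ≤ V := by
  conv_rhs => rw [← hV.opensRange_fromSpec]
  exact hV.fromSpec.image_le_opensRange U

theorem le_fromSpec_preimage (U : (Spec Γ(X, V)).Opens) : U ≤ hV.fromSpec ⁻¹ᵁ V := by
  rw [hV.fromSpec_preimage_self]; exact le_top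

theorem ΓSpecIso_inv_map_eq_appLE (U : (Spec Γ(X, V)).Opens) :
    (Scheme.ΓSpecIso Γ(X, V)).inv ≫ (Spec Γ(X, V)).presheaf.map (Opens.leTop U).op =
      hV.fromSpec.appLE V U (le_fromSpec_preimage hV U) := by
  rw [Scheme.Hom.appLE, hV.fromSpec_app_self, Category.assoc, ← Functor.map_comp]
  rfl

theorem appIso_inv_ΓSpecIso_inv (U : (Spec Γ(X, V)).Opens) (r : Γ(X, V)) :
    (hV.fromSpec.appIso U).inv ((Spec Γ(X, V)).presheaf.map (Opens.leTop U).op
      ((Scheme.ΓSpecIso Γ(X, V)).inv r)) =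
    X.presheaf.map (homOfLE (image_fromSpec_le hV U)).op r := by
  have h := hV.fromSpec.appLE_appIso_inv (le_fromSpec_preimage hV U)
  rw [← ΓSpecIso_inv_map_eq_appLE] at h
  exact congr($h r)

/-- The `Γ(X, V)`-action on sections of `M.restrict hV.fromSpec` is the restricted action. -/
theorem restrictAppIso_smul_fromSpec (U : (Spec Γ(X, V)).Opens) (r : Γ(X, V))
    (x : Γ(M.restrict hV.fromSpec, U)) :
    (M.restrictAppIso hV.fromSpec U).hom (r • x) =
      X.presheaf.map (homOfLE (image_fromSpec_le hV U)).op r •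
        (M.restrictAppIso hV.fromSpec U).hom x := by
  rw [Scheme.Modules.smul_Spec_def]
  rw [Scheme.Modules.smul_restrictAppIso_hom_apply]
  congr 1
  exact appIso_inv_ΓSpecIso_inv hV U r

variable [M.IsQuasicoherent] (f : Γ(X, V))

theorem isLocalizedModule_restrict_fromSpec : IsLocalizedModule (.powers f)
    ((modulesSpecToSheaf.obj (M.restrict hV.fromSpec)).obj.map
      (PrimeSpectrum.basicOpen f).leTop.op).hom :=
  (isIso_fromTildeΓ_iff_isLocalizing (M.restrict hV.fromSpec)).mp inferInstance f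

theorem exists_pow_smul_eq_res_aux (W₁ W₂ : X.Opens) (h₁ : hV.fromSpec ''ᵁ ⊤ = W₁)
    (h₂ : hV.fromSpec ''ᵁ (PrimeSpectrum.basicOpen f) = W₂) (h₁V : W₁ ≤ V) (h₂₁ : W₂ ≤ W₁)
    (x : Γ(M, W₂)) :
    ∃ (n : ℕ) (y : Γ(M, W₁)),
      (X.presheaf.map (homOfLE (h₂₁.trans h₁V)).op f) ^ n • x =
        M.presheaf.map (homOfLE h₂₁).op y := by
  subst h₁ h₂
  have hloc := isLocalizedModule_restrict_fromSpec M hV f
  obtain ⟨⟨y, ⟨_, n, rfl⟩⟩, hy⟩ := hloc.surj (show Γ(M.restrict hV.fromSpec, PrimeSpectrum.basicOpen f) from x)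
  refine ⟨n, y, ?_⟩
  have h3 := restrictAppIso_smul_fromSpec M hV (PrimeSpectrum.basicOpen f) (f ^ n) x
  rw [map_pow] at h3
  exact h3.symm.trans hy

theorem exists_pow_smul_eq_of_res_eq_aux (W₁ W₂ : X.Opens) (h₁ : hV.fromSpec ''ᵁ ⊤ = W₁)
    (h₂ : hV.fromSpec ''ᵁ (PrimeSpectrum.basicOpen f) = W₂) (h₁V : W₁ ≤ V) (h₂₁ : W₂ ≤ W₁)
    (y₁ y₂ : Γ(M, W₁))
    (h : M.presheaf.map (homOfLE h₂₁).op y₁ = M.presheaf.map (homOfLE h₂₁).op y₂) :
    ∃ n : ℕ, (X.presheaf.map (homOfLE h₁V).op f) ^ n • y₁ =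
      (X.presheaf.map (homOfLE h₁V).op f) ^ n • y₂ := by
  subst h₁ h₂
  have hloc := isLocalizedModule_restrict_fromSpec M hV f
  obtain ⟨⟨_, n, rfl⟩, hc⟩ := hloc.exists_of_eq
    (x₁ := (show Γ(M.restrict hV.fromSpec, ⊤) from y₁))
    (x₂ := (show Γ(M.restrict hV.fromSpec, ⊤) from y₂)) h
  refine ⟨n, ?_⟩
  have h3 := restrictAppIso_smul_fromSpec M hV ⊤ (f ^ n) y₁
  have h4 := restrictAppIso_smul_fromSpec M hV ⊤ (f ^ n) y₂
  rw [map_pow] at h3 h4
  exact h3.symm.trans (hc.trans h4)

include hV in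
/-- **Sections over a basic open are fractions** (surjectivity part): every section of a
quasi-coherent module over `D(f) ⊆ V`, `V` affine, becomes the restriction of a section over `V`
after multiplication by a power of `f`. -/
theorem exists_pow_smul_eq_res (x : Γ(M, X.basicOpen f)) :
    ∃ (n : ℕ) (y : Γ(M, V)),
      (X.presheaf.map (homOfLE (X.basicOpen_le f)).op f) ^ n • x =
        M.presheaf.map (homOfLE (X.basicOpen_le f)).op y :=
  exists_pow_smul_eq_res_aux M hV f V (X.basicOpen f)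
    (hV.fromSpec.image_top_eq_opensRange.trans hV.opensRange_fromSpec)
    (hV.fromSpec_image_basicOpen f) le_rfl (X.basicOpen_le f) x

include hV in
/-- **Sections over a basic open are fractions** (injectivity part): two sections over the affine
open `V` which agree on `D(f)` agree after multiplication by a power of `f`. -/
theorem exists_pow_smul_eq_of_res_eq (y₁ y₂ : Γ(M, V))
    (h : M.presheaf.map (homOfLE (X.basicOpen_le f)).op y₁ =
      M.presheaf.map (homOfLE (X.basicOpen_le f)).op y₂) :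
    ∃ n : ℕ, f ^ n • y₁ = f ^ n • y₂ := by
  obtain ⟨n, hn⟩ := exists_pow_smul_eq_of_res_eq_aux M hV f V (X.basicOpen f)
    (hV.fromSpec.image_top_eq_opensRange.trans hV.opensRange_fromSpec)
    (hV.fromSpec_image_basicOpen f) le_rfl (X.basicOpen_le f) y₁ y₂ h
  refine ⟨n, ?_⟩
  have e : X.presheaf.map (homOfLE (le_refl V)).op f = f := by
    show X.presheaf.map (𝟙 (op V)) f = f
    rw [X.presheaf.map_id]; rfl
  rwa [e] at hn

section Packaged

variable {M}

/-- Sections of `M` over `W ≤ V` as a module over `Γ(X, V)` (restriction of scalars along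
`Γ(X, V) → Γ(X, W)`).  Not an instance: use `letI := moduleOfLE M h`. -/
@[reducible] noncomputable def moduleOfLE (M : X.Modules) {W V : X.Opens} (h : W ≤ V) :
    Module Γ(X, V) Γ(M, W) :=
  Module.compHom Γ(M, W) (X.presheaf.map (homOfLE h).op).hom

theorem moduleOfLE_smul_def (M : X.Modules) {W V : X.Opens} (h : W ≤ V) (r : Γ(X, V))
    (x : Γ(M, W)) :
    letI := moduleOfLE M h
    r • x = X.presheaf.map (homOfLE h).op r • x :=
  rfl

/-- The restriction map `Γ(M, V) → Γ(M, W)` as a `Γ(X, V)`-linear map. -/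
noncomputable def resₗ (M : X.Modules) {W V : X.Opens} (h : W ≤ V) :
    letI := moduleOfLE M h
    Γ(M, V) →ₗ[Γ(X, V)] Γ(M, W) :=
  letI := moduleOfLE M h
  { toFun := fun y => M.presheaf.map (homOfLE h).op y
    map_add' := fun a b => map_add _ a b
    map_smul' := fun r y => M.map_smul (homOfLE h) r y }

@[simp]
theorem resₗ_apply (M : X.Modules) {W V : X.Opens} (h : W ≤ V) (y : Γ(M, V)) :
    letI := moduleOfLE M h
    resₗ M h y = M.presheaf.map (homOfLE h).op y :=
  rfl

end Packaged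

include hV in
/-- **B1.4**: for a quasi-coherent module `M`, an affine open `V` and `f : Γ(X, V)`, the restriction
`Γ(M, V) → Γ(M, D(f))` is the localisation of the `Γ(X, V)`-module `Γ(M, V)` at the powers
of `f`. -/
theorem isLocalizedModule_resₗ_basicOpen :
    letI := moduleOfLE M (X.basicOpen_le f)
    IsLocalizedModule (.powers f) (resₗ M (X.basicOpen_le f)) := by
  let _ := moduleOfLE M (X.basicOpen_le f)
  have hu : IsUnit (X.presheaf.map (homOfLE (X.basicOpen_le f)).op f) :=
    RingedSpace.isUnit_res_basicOpen X.toRingedSpace f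
  refine ⟨?_, ?_, ?_⟩
  · rintro ⟨_, n, rfl⟩
    rw [Module.End.isUnit_iff]
    have hun := hu.pow n
    constructor
    · intro a b hab
      rw [Module.algebraMap_end_apply, Module.algebraMap_end_apply, moduleOfLE_smul_def,
        moduleOfLE_smul_def, map_pow] at hab
      exact hun.smul_left_cancel.mp hab
    · intro a
      obtain ⟨u, hu'⟩ := hun
      refine ⟨(↑u⁻¹ : Γ(X, X.basicOpen f)) • a, ?_⟩
      simp only [Module.algebraMap_end_apply]
      rw [moduleOfLE_smul_def, map_pow, ← hu', smul_smul, Units.mul_inv, one_smul]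
  · intro x
    obtain ⟨n, y, h⟩ := exists_pow_smul_eq_res M hV f x
    refine ⟨⟨y, ⟨f ^ n, n, rfl⟩⟩, ?_⟩
    show (f ^ n) • x = resₗ M (X.basicOpen_le f) y
    rw [moduleOfLE_smul_def, map_pow, resₗ_apply]
    exact h
  · intro y₁ y₂ h
    obtain ⟨n, hn⟩ := exists_pow_smul_eq_of_res_eq M hV f y₁ y₂ h
    exact ⟨⟨f ^ n, n, rfl⟩, hn⟩

include hV in
/-- Variant of `isLocalizedModule_resₗ_basicOpen` for an open `W` which is only propositionally
equal to `D(f)`. -/
theorem isLocalizedModule_resₗ_of_eq_basicOpen {W : X.Opens} (hWV : W ≤ V)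
    (hW : W = X.basicOpen f) :
    letI := moduleOfLE M hWV
    IsLocalizedModule (.powers f) (resₗ M hWV) := by
  subst hW
  exact isLocalizedModule_resₗ_basicOpen M hV f

end Fermat.Agent.JAC.Mod.SectionsLoc4
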