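/-
JAC brick B1.3 (algebra part), helper85.

Local-to-global for invertible modules: if `s ⊆ R` spans the unit ideal and every
localisation `N_g` (`g ∈ s`) is an invertible `R_g`-module, then `N` is an invertible
`R`-module.  Pure Mathlib.
-/
import Mathlib

namespace Fermat.Agent.JAC.Mod.LocInv85

open TensorProduct

section Primed

variable {R : Type*} [CommRing R] {N : Type*} [AddCommGroup N] [Module R N]
variable (s : Set R) (hs : Ideal.span s = ⊤)
variable {Rₚ : s → Type*} [∀ g, CommRing (Rₚ g)] [∀ g, Algebra R (Rₚ g)]
  [∀ g : s, IsLocalization.Away g.1 (Rₚ g)]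
variable {Nₚ : s → Type*} [∀ g, AddCommGroup (Nₚ g)] [∀ g, Module R (Nₚ g)]
  [∀ g, Module (Rₚ g) (Nₚ g)] [∀ g, IsScalarTower R (Rₚ g) (Nₚ g)]
  (φ : ∀ g : s, N →ₗ[R] Nₚ g) [hφ : ∀ g : s, IsLocalizedModule.Away g.1 (φ g)]

include hs φ hφ in
/-- Finiteness descends along a Zariski cover on which the module is invertible. -/
theorem finite_of_localizationSpan'
    (h : ∀ g : s, Module.Invertible (Rₚ g) (Nₚ g)) : Module.Finite R N :=
  Module.Finite.of_localizationSpan' s hs (Rₚ := Rₚ) φ (fun g => by have := h g; infer_instance)

include hs φ hφ in
/-- Finite presentation descends along a Zariski cover on which the module is invertible. -/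
theorem finitePresentation_of_localizationSpan'
    (h : ∀ g : s, Module.Invertible (Rₚ g) (Nₚ g)) : Module.FinitePresentation R N :=
  Module.FinitePresentation.of_localizationSpan' s hs (Rₚ := Rₚ) φ
    (fun g => by have := h g; exact Module.finitePresentation_of_projective _ _)

include hs φ hφ in
/-- Flatness descends along a Zariski cover on which the module is invertible. -/
theorem flat_of_localizationSpan'
    (h : ∀ g : s, Module.Invertible (Rₚ g) (Nₚ g)) : Module.Flat R N :=
  Module.flat_of_isLocalized_span R N s hs Nₚ φ (fun g => by
    have := h g
    have : Module.Flat R (Rₚ g) := IsLocalization.flat (Rₚ g) (.powers g.1)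
    exact Module.Flat.trans R (Rₚ g) (Nₚ g))

include hs φ hφ in
/-- Projectivity descends along a Zariski cover on which the module is invertible. -/
theorem projective_of_localizationSpan'
    (h : ∀ g : s, Module.Invertible (Rₚ g) (Nₚ g)) : Module.Projective R N := by
  have := finitePresentation_of_localizationSpan' s hs φ h
  have := flat_of_localizationSpan' s hs φ h
  exact Module.Flat.projective_of_finitePresentation

/-- The localisation of the homothety map `R → End_R N` is the homothety map of the
localised module. -/
theorem map_algebraLinearMap_end [Module.FinitePresentation R N] (g : s) :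
    IsLocalizedModule.map (.powers g.1) (Algebra.linearMap R (Rₚ g))
        (IsLocalizedModule.mapExtendScalars (.powers g.1) (φ g) (φ g) (Rₚ g))
        (Algebra.linearMap R (Module.End R N)) =
      (Algebra.linearMap (Rₚ g) (Module.End (Rₚ g) (Nₚ g))).restrictScalars R := by
  apply IsLocalizedModule.linearMap_ext (.powers g.1) (Algebra.linearMap R (Rₚ g))
    (IsLocalizedModule.mapExtendScalars (.powers g.1) (φ g) (φ g) (Rₚ g))
  refine LinearMap.ext fun r => ?_
  simp only [LinearMap.coe_comp, Function.comp_apply, IsLocalizedModule.map_apply]
  refine LinearMap.ext fun x => ?_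
  rw [IsLocalizedModule.mapExtendScalars_apply_apply]
  have key : IsLocalizedModule.map (.powers g.1) (φ g) (φ g)
      (Algebra.linearMap R (Module.End R N) r) = r • LinearMap.id := by
    apply IsLocalizedModule.linearMap_ext (.powers g.1) (φ g) (φ g)
    refine LinearMap.ext fun n => ?_
    simp [IsLocalizedModule.map_apply]
  rw [key]
  simp

include hs φ hφ in
/-- The homothety map `R → End_R N` is bijective if it is so Zariski locally. -/
theorem algebraLinearMap_end_bijective
    (h : ∀ g : s, Module.Invertible (Rₚ g) (Nₚ g)) :
    Function.Bijective (Algebra.linearMap R (Module.End R N)) := by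
  have := finitePresentation_of_localizationSpan' s hs φ h
  refine bijective_of_isLocalized_span s hs Rₚ (fun g => Algebra.linearMap R (Rₚ g))
    (fun g => Module.End (Rₚ g) (Nₚ g))
    (fun g => IsLocalizedModule.mapExtendScalars (.powers g.1) (φ g) (φ g) (Rₚ g))
    (Algebra.linearMap R (Module.End R N)) (fun g => ?_)
  rw [map_algebraLinearMap_end s φ g]
  have := h g
  exact Module.Invertible.toModuleEnd_bijective (Rₚ g) (Nₚ g)

include hs φ hφ in
/-- **Local-to-global for invertible modules** (general localisation models): if `s` spans
the unit ideal of `R` and each localisation `Nₚ g` of `N` away from `g ∈ s` is an invertible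
`Rₚ g`-module, then `N` is an invertible `R`-module. -/
theorem invertible_of_localizationSpan'
    (h : ∀ g : s, Module.Invertible (Rₚ g) (Nₚ g)) : Module.Invertible R N := by
  have := finite_of_localizationSpan' s hs φ h
  have := projective_of_localizationSpan' s hs φ h
  have hF := algebraLinearMap_end_bijective s hs φ h
  let e : Module.Dual R N ⊗[R] N ≃ₗ[R] R :=
    (LinearEquiv.ofBijective (dualTensorHom R N N) dualTensorHom_bijective) ≪≫ₗ
      (LinearEquiv.ofBijective (Algebra.linearMap R (Module.End R N)) hF).symm
  exact Module.Invertible.right e

end Primed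

section Standard

variable {R : Type*} [CommRing R] {N : Type*} [AddCommGroup N] [Module R N]

/-- **Local-to-global for invertible modules**: if `s` spans the unit ideal of `R` and each
`N_g` (`g ∈ s`) is an invertible `R_g`-module, then `N` is an invertible `R`-module. -/
theorem invertible_of_localizationSpan (s : Set R) (hs : Ideal.span s = ⊤)
    (h : ∀ g : s, Module.Invertible (Localization.Away g.1) (LocalizedModule.Away g.1 N)) :
    Module.Invertible R N :=
  invertible_of_localizationSpan' s hs
    (fun g : s => LocalizedModule.mkLinearMap (.powers g.1) N) h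

/-- Finset version of `invertible_of_localizationSpan`. -/
theorem invertible_of_localizationSpan_finset (s : Finset R) (hs : Ideal.span (s : Set R) = ⊤)
    (h : ∀ g ∈ s, Module.Invertible (Localization.Away g) (LocalizedModule.Away g N)) :
    Module.Invertible R N :=
  invertible_of_localizationSpan (s : Set R) hs (fun g => h g.1 g.2)

/-- If `s` spans the unit ideal and each `N_g` (`g ∈ s`) is free of rank one over `R_g`,
then `N` is an invertible `R`-module. -/
theorem invertible_of_localizationSpan_equiv (s : Set R) (hs : Ideal.span s = ⊤)
    (h : ∀ g : s, Nonempty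
      (LocalizedModule.Away g.1 N ≃ₗ[Localization.Away g.1] Localization.Away g.1)) :
    Module.Invertible R N :=
  invertible_of_localizationSpan s hs (fun g => by
    obtain ⟨e⟩ := h g
    exact Module.Invertible.congr e.symm)

/-- An `R`-module is invertible iff it is so on a Zariski cover. -/
theorem invertible_iff_localizationSpan (s : Set R) (hs : Ideal.span s = ⊤) :
    Module.Invertible R N ↔
      ∀ g : s, Module.Invertible (Localization.Away g.1) (LocalizedModule.Away g.1 N) :=
  ⟨fun _ _ => inferInstance, invertible_of_localizationSpan s hs⟩

/-- Base-change form: if `s` spans the unit ideal and each `R_g ⊗ N` is an invertible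
`R_g`-module, then `N` is invertible. -/
theorem invertible_of_localizationSpan_tensor (s : Set R) (hs : Ideal.span s = ⊤)
    (h : ∀ g : s, Module.Invertible (Localization.Away g.1) (Localization.Away g.1 ⊗[R] N)) :
    Module.Invertible R N :=
  invertible_of_localizationSpan' s hs
    (fun g : s => TensorProduct.mk R (Localization.Away g.1) N 1) h

end Standard

end Fermat.Agent.JAC.Mod.LocInv85
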